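import Mathlib.Topology.GDelta.Basic
import Mathlib.Order.Lattice.Nat
import Mathlib.Data.Finset.Max

/-!
# The Ellentuck topology and open sets

The space of infinite sets of natural numbers, its basic cubes, the fusion lemma, and the
accept-reject argument of Galvin and Prikry: every open set is completely Ramsey.
-/

set_option autoImplicit false

namespace FA.Ellentuck

open Set

/-- The elements of `A` beyond a finite set. -/
def above (s : Finset ℕ) (A : Set ℕ) : Set ℕ :=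
  {a | a ∈ A ∧ ∀ x ∈ s, x < a}

theorem above_subset (s : Finset ℕ) (A : Set ℕ) : above s A ⊆ A :=
  fun _ h => h.1

theorem above_empty (A : Set ℕ) : above ∅ A = A := by
  simp [above]

theorem above_infinite (s : Finset ℕ) {A : Set ℕ} (hA : A.Infinite) : (above s A).Infinite :=
  (hA.sdiff (finite_Iic (s.sup id))).mono fun _ ha =>
    ⟨ha.1, fun _ hx => lt_of_le_of_lt (Finset.le_sup (f := id) hx) (not_le.1 ha.2)⟩

/-- An infinite set of natural numbers, as a point of the Ellentuck space. -/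
@[ext]
structure Pts where
  /-- The underlying set. -/
  carrier : Set ℕ
  /-- It is infinite. -/
  infinite : carrier.Infinite

/-- The cube `[s, A]`: the infinite sets that begin with `s` and continue inside `A`. -/
def cube (s : Finset ℕ) (A : Set ℕ) : Set Pts :=
  {C | ↑s ⊆ C.carrier ∧ C.carrier ⊆ ↑s ∪ above s A}

theorem cube_mono {s : Finset ℕ} {A B : Set ℕ} (h : above s B ⊆ A) : cube s B ⊆ cube s A :=
  fun _ hC => ⟨hC.1, fun _ hx => (hC.2 hx).imp_right fun hx => ⟨h hx, hx.2⟩⟩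

theorem cube_mono_of_subset {s : Finset ℕ} {A B : Set ℕ} (h : B ⊆ A) : cube s B ⊆ cube s A :=
  cube_mono ((above_subset s B).trans h)

theorem cube_nonempty (s : Finset ℕ) {A : Set ℕ} (hA : A.Infinite) : (cube s A).Nonempty :=
  ⟨⟨↑s ∪ above s A, (above_infinite s hA).mono subset_union_right⟩, subset_union_left, subset_rfl⟩

open Classical in
/-- The part below `n`. -/
noncomputable def initSeg (C : Pts) (n : ℕ) : Finset ℕ :=
  {x ∈ Finset.range n | x ∈ C.carrier}

theorem mem_initSeg {C : Pts} {n x : ℕ} : x ∈ initSeg C n ↔ x < n ∧ x ∈ C.carrier := by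
  simp [initSeg]

theorem mem_cube_initSeg (C : Pts) (n : ℕ) : C ∈ cube (initSeg C n) C.carrier := by
  refine ⟨fun x hx => (mem_initSeg.1 hx).2, fun x hx => ?_⟩
  rcases lt_or_ge x n with h | h
  exacts [.inl (mem_initSeg.2 ⟨h, hx⟩), .inr ⟨hx, fun y hy => (mem_initSeg.1 hy).1.trans_le h⟩]

theorem cube_initSeg_subset {C : Pts} {s : Finset ℕ} {A : Set ℕ} (hC : C ∈ cube s A) {n : ℕ}
    (hn : ∀ x ∈ s, x < n) : cube (initSeg C n) C.carrier ⊆ cube s A :=
  fun D hD => ⟨fun x hx => hD.1 (mem_initSeg.2 ⟨hn x hx, hC.1 hx⟩), fun _ hx => by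
    rcases hD.2 hx with h | h
    exacts [hC.2 (mem_initSeg.1 h).2, hC.2 h.1]⟩

theorem cube_initSeg_anti (C : Pts) {n m : ℕ} (h : n ≤ m) :
    cube (initSeg C m) C.carrier ⊆ cube (initSeg C n) C.carrier :=
  cube_initSeg_subset (mem_cube_initSeg C n) fun _ hx => (mem_initSeg.1 hx).1.trans_le h

/-- The Ellentuck topology. -/
instance : TopologicalSpace Pts where
  IsOpen X := ∀ C ∈ X, ∃ n, cube (initSeg C n) C.carrier ⊆ X
  isOpen_univ _ _ := ⟨0, subset_univ _⟩
  isOpen_inter X Y hX hY C hC := by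
    obtain ⟨n, hn⟩ := hX C hC.1
    obtain ⟨m, hm⟩ := hY C hC.2
    exact ⟨max n m, subset_inter ((cube_initSeg_anti C (le_max_left n m)).trans hn)
      ((cube_initSeg_anti C (le_max_right n m)).trans hm)⟩
  isOpen_sUnion S hS C hC := by
    obtain ⟨X, hX, hCX⟩ := hC
    obtain ⟨n, hn⟩ := hS X hX C hCX
    exact ⟨n, hn.trans (subset_sUnion_of_mem hX)⟩

theorem isOpen_iff_cube {X : Set Pts} :
    IsOpen X ↔ ∀ C ∈ X, ∃ n, cube (initSeg C n) C.carrier ⊆ X :=
  Iff.rfl

theorem isOpen_cube (s : Finset ℕ) (A : Set ℕ) : IsOpen (cube s A) :=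
  fun _ hC => ⟨s.sup id + 1, cube_initSeg_subset hC fun _ hx =>
    Nat.lt_succ_of_le (Finset.le_sup (f := id) hx)⟩

/-- Membership below `n` is constant on a basic neighbourhood. -/
theorem mem_iff_of_mem_cube_initSeg {C D : Pts} {n x : ℕ}
    (hD : D ∈ cube (initSeg C n) C.carrier) (hx : x < n) : x ∈ D.carrier ↔ x ∈ C.carrier := by
  refine ⟨fun h => ?_, fun h => hD.1 (mem_initSeg.2 ⟨hx, h⟩)⟩
  rcases hD.2 h with h | h
  exacts [(mem_initSeg.1 h).2, h.1]

/-- A long initial segment of a point of `[s, A]` is `s` together with a finite subset of `A`. -/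
theorem exists_initSeg_eq {C : Pts} {s : Finset ℕ} {A : Set ℕ} (hC : C ∈ cube s A) {n : ℕ}
    (hn : ∀ x ∈ s, x < n) : ∃ t : Finset ℕ, ↑t ⊆ above s A ∧ initSeg C n = s ∪ t := by
  classical
  refine ⟨initSeg C n \ s, fun x hx => ?_, (Finset.union_sdiff_of_subset fun x hx =>
    mem_initSeg.2 ⟨hn x hx, hC.1 hx⟩).symm⟩
  obtain ⟨h1, h2⟩ := Finset.mem_sdiff.1 hx
  exact (hC.2 (mem_initSeg.1 h1).2).resolve_left h2

/-- **Fusion.** A dense hereditary property of pairs can be had for all stems at once. -/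
theorem exists_fusion {D : Set ℕ → Finset ℕ → Prop}
    (hher : ∀ A B s, D A s → B.Infinite → above s B ⊆ A → D B s)
    (hden : ∀ A s, A.Infinite → ∃ B ⊆ A, B.Infinite ∧ D B s) {A : Set ℕ} (hA : A.Infinite)
    (s₀ : Finset ℕ) :
    ∃ B ⊆ above s₀ A, B.Infinite ∧ ∀ t : Finset ℕ, ↑t ⊆ B → D B (s₀ ∪ t) := by
  classical
  have hmany : ∀ (L : Finset (Finset ℕ)) (A : Set ℕ), A.Infinite →
      ∃ B ⊆ A, B.Infinite ∧ ∀ s ∈ L, D B s := by
    intro L
    induction L using Finset.induction_on with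
    | empty => exact fun A hA => ⟨A, subset_rfl, hA, fun s h => absurd h (Finset.notMem_empty s)⟩
    | insert s L _ ih =>
      intro A hA
      obtain ⟨B, hBA, hB, hBL⟩ := ih A hA
      obtain ⟨B', hB'B, hB', hs⟩ := hden B s hB
      refine ⟨B', hB'B.trans hBA, hB', fun r hr => ?_⟩
      rcases Finset.mem_insert.1 hr with rfl | hr
      exacts [hs, hher _ _ _ (hBL r hr) hB' ((above_subset r B').trans hB'B)]
  obtain ⟨A₀, hA₀, hA₀i, hD₀⟩ := hden (above s₀ A) s₀ (above_infinite s₀ hA)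
  let State := {p : Set ℕ × Finset ℕ // p.1.Infinite}
  have hstep : ∀ p : State, ∃ q : State, q.1.2 = insert (sInf p.1.1) p.1.2 ∧
      q.1.1 ⊆ above {sInf p.1.1} p.1.1 ∧ ∀ t ⊆ q.1.2, D q.1.1 (s₀ ∪ t) := by
    intro p
    obtain ⟨B, hB, hBi, hBD⟩ := hmany ((insert (sInf p.1.1) p.1.2).powerset.image (s₀ ∪ ·))
      (above {sInf p.1.1} p.1.1) (above_infinite _ p.2)
    exact ⟨⟨(B, insert (sInf p.1.1) p.1.2), hBi⟩, rfl, hB, fun t ht =>
      hBD _ (Finset.mem_image.2 ⟨t, Finset.mem_powerset.2 ht, rfl⟩)⟩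
  choose next hnF hnA hnD using hstep
  let st : ℕ → State := fun n => Nat.rec ⟨(A₀, ∅), hA₀i⟩ (fun _ p => next p) n
  let a : ℕ → ℕ := fun n => sInf (st n).1.1
  have ha : ∀ n, a n ∈ (st n).1.1 := fun n => Nat.sInf_mem (st n).2.nonempty
  have hanti : ∀ m n, m ≤ n → (st n).1.1 ⊆ (st m).1.1 := fun m n h => by
    induction h with
    | refl => exact subset_rfl
    | step _ ih => exact ((hnA _).trans (above_subset _ _)).trans ih
  have hmono : StrictMono a := strictMono_nat_of_lt_succ fun n =>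
    (hnA (st n) (ha (n + 1))).2 _ (Finset.mem_singleton_self _)
  have hF : ∀ k m, k ≤ m → a k ∈ (st (m + 1)).1.2 := fun k m h => by
    induction h with
    | refl =>
      change a k ∈ (next (st k)).1.2
      rw [hnF]
      exact Finset.mem_insert_self _ _
    | @step j _ ih =>
      change a k ∈ (next (st (j + 1))).1.2
      rw [hnF]
      exact Finset.mem_insert_of_mem ih
  have hBA : range a ⊆ A₀ := range_subset_iff.2 fun n => hanti 0 n (Nat.zero_le n) (ha n)
  refine ⟨range a, hBA.trans hA₀, infinite_range_of_injective hmono.injective, fun t ht => ?_⟩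
  have hinf := infinite_range_of_injective hmono.injective
  rcases t.eq_empty_or_nonempty with rfl | hne
  · rw [Finset.union_empty]
    exact hher _ _ _ hD₀ hinf ((above_subset _ _).trans hBA)
  obtain ⟨m, hm⟩ := ht (t.max'_mem hne)
  refine hher _ _ _ (hnD (st m) t fun x hx => ?_) hinf ?_
  · obtain ⟨k, rfl⟩ := ht hx
    exact hF k m (hmono.le_iff_le.1 (hm ▸ t.le_max' _ hx))
  · rintro _ ⟨⟨k, rfl⟩, hk⟩
    have hlt : a m < a k := hm ▸ hk _ (Finset.mem_union_right _ (t.max'_mem hne))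
    exact hanti (m + 1) k (hmono.lt_iff_lt.1 hlt) (ha k)

/-- `X` is completely Ramsey. -/
def IsCR (X : Set Pts) : Prop :=
  ∀ (s : Finset ℕ) (A : Set ℕ), A.Infinite →
    ∃ B ⊆ A, B.Infinite ∧ (cube s B ⊆ X ∨ Disjoint (cube s B) X)

/-- `X` is Ramsey null. -/
def IsRamseyNull (X : Set Pts) : Prop :=
  ∀ (s : Finset ℕ) (A : Set ℕ), A.Infinite → ∃ B ⊆ A, B.Infinite ∧ Disjoint (cube s B) X

theorem IsCR.compl {X : Set Pts} (h : IsCR X) : IsCR Xᶜ := fun s A hA => by
  obtain ⟨B, hBA, hB, h | h⟩ := h s A hA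
  exacts [⟨B, hBA, hB, .inr (disjoint_compl_right_iff_subset.2 h)⟩,
    ⟨B, hBA, hB, .inl h.subset_compl_right⟩]

/-- No part of `A` puts the whole cube over `s` inside `X`. -/
def Rejects (X : Set Pts) (A : Set ℕ) (s : Finset ℕ) : Prop :=
  ∀ B : Set ℕ, B.Infinite → above s B ⊆ A → ¬cube s B ⊆ X

theorem Rejects.mono {X : Set Pts} {A B : Set ℕ} {s : Finset ℕ} (h : Rejects X A s)
    (hBA : above s B ⊆ A) : Rejects X B s :=
  fun B' hB' hsub => h B' hB' fun _ hx => hBA ⟨hsub hx, hx.2⟩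

/-- **Open sets are completely Ramsey.** -/
theorem isCR_of_isOpen {X : Set Pts} (hX : IsOpen X) : IsCR X := by
  classical
  intro s₀ A hA
  obtain ⟨B₁, hB₁A, hB₁, hdec⟩ := exists_fusion
    (D := fun B s => cube s B ⊆ X ∨ Rejects X B s)
    (fun _ _ _ h _ hsub => h.imp (cube_mono hsub).trans fun h => h.mono hsub)
    (fun B s hB => by
      by_cases h : Rejects X B s
      · exact ⟨B, subset_rfl, hB, .inr h⟩
      · simp only [Rejects, not_forall, not_not] at h
        obtain ⟨B', hB', hsub, hacc⟩ := h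
        exact ⟨above s B', hsub, above_infinite s hB',
          .inl ((cube_mono_of_subset (above_subset s B')).trans hacc)⟩) hA s₀
  rcases hdec ∅ (by simp) with h | hrej₀
  · exact ⟨B₁, hB₁A.trans (above_subset _ _), hB₁, .inl (by simpa using h)⟩
  rw [Finset.union_empty] at hrej₀
  obtain ⟨B₂, hB₂B₁, hB₂, hthin⟩ := exists_fusion
    (D := fun C s => (∃ t : Finset ℕ, ↑t ⊆ B₁ ∧ s = s₀ ∪ t) → Rejects X B₁ s →
      ∀ b ∈ above s C, b ∈ B₁ → Rejects X B₁ (insert b s))
    (fun _ _ _ h _ hsub hs hr b hb hb₁ => h hs hr b ⟨hsub hb, hb.2⟩ hb₁)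
    (fun C s hC => by
      by_cases hs : (∃ t : Finset ℕ, ↑t ⊆ B₁ ∧ s = s₀ ∪ t) ∧ Rejects X B₁ s
      swap
      · exact ⟨C, subset_rfl, hC, fun h h' => absurd ⟨h, h'⟩ hs⟩
      let bad : Set ℕ := {b | b ∈ above s B₁ ∧ ¬Rejects X B₁ (insert b s)}
      have hbad : bad.Finite := by
        by_contra hinf
        obtain ⟨⟨t, ht, rfl⟩, hr⟩ := hs
        refine hr bad hinf (fun b hb => hb.1.1.1) fun E hE => ?_
        obtain ⟨e, he, hes⟩ := E.infinite.exists_notMem_finset (s₀ ∪ t)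
        have hex : ∃ b, b ∈ E.carrier ∧ b ∉ s₀ ∪ t := ⟨e, he, hes⟩
        obtain ⟨hbE, hbs⟩ := Nat.find_spec hex
        have hb : Nat.find hex ∈ above (s₀ ∪ t) bad := (hE.2 hbE).resolve_left hbs
        have hins : insert (Nat.find hex) (s₀ ∪ t) = s₀ ∪ insert (Nat.find hex) t :=
          (Finset.union_insert _ _ _).symm
        have hacc : cube (insert (Nat.find hex) (s₀ ∪ t)) B₁ ⊆ X := by
          have := hdec (insert (Nat.find hex) t) (by
            rw [Finset.coe_insert]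
            exact insert_subset hb.1.1.1 ht)
          rw [← hins] at this
          exact this.resolve_right hb.1.2
        refine hacc ⟨fun x hx => ?_, fun x hx => ?_⟩
        · rcases Finset.mem_insert.1 hx with rfl | hx
          exacts [hbE, hE.1 hx]
        · by_cases hxs : x ∈ insert (Nat.find hex) (s₀ ∪ t)
          · exact .inl hxs
          rw [Finset.mem_insert, not_or] at hxs
          have hxb : x ∈ above (s₀ ∪ t) bad := (hE.2 hx).resolve_left hxs.2
          refine .inr ⟨hxb.1.1.1, fun y hy => ?_⟩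
          rcases Finset.mem_insert.1 hy with rfl | hy
          · exact lt_of_le_of_ne (Nat.find_min' hex ⟨hx, hxs.2⟩) (Ne.symm hxs.1)
          · exact hxb.2 y hy
      exact ⟨C \ bad, sdiff_subset, hC.sdiff hbad, fun _ _ b hb hb₁ =>
        by_contra fun h => hb.1.2 ⟨⟨hb₁, hb.2⟩, h⟩⟩) hB₁ s₀
  have hB₂' : B₂ ⊆ B₁ := hB₂B₁.trans (above_subset _ _)
  have hrej : ∀ t : Finset ℕ, ↑t ⊆ B₂ → Rejects X B₁ (s₀ ∪ t) := by
    intro t
    induction t using Finset.induction_on_max with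
    | empty =>
      intro _
      simpa using hrej₀
    | insert a t hat ih =>
      intro ht
      rw [Finset.coe_insert, insert_subset_iff] at ht
      rw [Finset.union_insert]
      refine hthin t ht.2 ⟨t, ht.2.trans hB₂', rfl⟩ (ih ht.2) a ⟨ht.1, fun x hx => ?_⟩ (hB₂' ht.1)
      rcases Finset.mem_union.1 hx with h | h
      exacts [(hB₂B₁ ht.1).2 x h, hat x h]
  refine ⟨B₂, (hB₂'.trans hB₁A).trans (above_subset _ _), hB₂, .inr (Set.disjoint_left.2
    fun C hC hCX => ?_)⟩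
  obtain ⟨n, hn⟩ := hX C hCX
  let m := max n (s₀.sup id + 1)
  obtain ⟨t, ht, heq⟩ := exists_initSeg_eq hC (n := m) fun x hx =>
    lt_of_le_of_lt (Finset.le_sup (f := id) hx) (le_max_right n _)
  have hacc : cube (s₀ ∪ t) C.carrier ⊆ X :=
    heq ▸ (cube_initSeg_anti C (le_max_left n (s₀.sup id + 1))).trans hn
  refine hrej t (ht.trans (above_subset _ _)) C.carrier C.infinite (fun x hx => ?_) hacc
  rcases hC.2 hx.1 with h | h
  exacts [absurd (hx.2 x (Finset.mem_union_left _ h)) (lt_irrefl x), hB₂' h.1]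

end FA.Ellentuck
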