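import Fermat.Agent.Ellentuck.Basic
import Fermat.Agent.SilverDichotomy.Category

/-!
# Ellentuck's theorem and analytic sets

Meagre sets of the Ellentuck topology are the Ramsey null sets, the sets with the property of
Baire are the completely Ramsey sets, and analytic sets of Cantor space are among them.
-/

set_option autoImplicit false

namespace FA.Ellentuck

open Set Topology Filter MeasureTheory PiNat FA.SilverDichotomy

theorem IsRamseyNull.mono {X Y : Set Pts} (h : IsRamseyNull Y) (hXY : X ⊆ Y) : IsRamseyNull X :=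
  fun s A hA => by
    obtain ⟨B, hBA, hB, hd⟩ := h s A hA
    exact ⟨B, hBA, hB, hd.mono_right hXY⟩

theorem isRamseyNull_of_isNowhereDense {X : Set Pts} (hX : IsNowhereDense X) : IsRamseyNull X :=
  fun s A hA => by
    have hcr : IsCR (closure X) := by
      simpa using (isCR_of_isOpen (isClosed_closure (s := X)).isOpen_compl).compl
    obtain ⟨B, hBA, hB, h | h⟩ := hcr s A hA
    · obtain ⟨C, hC⟩ := cube_nonempty s hB
      exact absurd (interior_maximal h (isOpen_cube s B) hC) (by
        rw [IsNowhereDense] at hX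
        rw [hX]
        exact notMem_empty C)
    · exact ⟨B, hBA, hB, h.mono_right subset_closure⟩

theorem isNowhereDense_of_isRamseyNull {X : Set Pts} (hX : IsRamseyNull X) :
    IsNowhereDense X := by
  rw [IsNowhereDense, eq_empty_iff_forall_notMem]
  intro C hC
  obtain ⟨n, hn⟩ := isOpen_iff_cube.1 isOpen_interior C hC
  obtain ⟨B, hBA, hB, hd⟩ := hX (initSeg C n) C.carrier C.infinite
  obtain ⟨D, hD⟩ := cube_nonempty (initSeg C n) hB
  obtain ⟨E, hE, hEX⟩ := mem_closure_iff.1 (interior_subset (hn (cube_mono_of_subset hBA hD)))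
    _ (isOpen_cube (initSeg C n) B) hD
  exact Set.disjoint_left.1 hd hE hEX

/-- **Countable unions of Ramsey null sets are Ramsey null.** -/
theorem isRamseyNull_iUnion {X : ℕ → Set Pts} (hX : ∀ m, IsRamseyNull (X m)) :
    IsRamseyNull (⋃ m, X m) := by
  intro s A hA
  classical
  have hfin : ∀ (k : ℕ) (B : Set ℕ) (r : Finset ℕ), B.Infinite →
      ∃ B' ⊆ B, B'.Infinite ∧ ∀ m < k, Disjoint (cube r B') (X m) := by
    intro k B r hB
    induction k with
    | zero => exact ⟨B, subset_rfl, hB, fun m hm => absurd hm (Nat.not_lt_zero m)⟩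
    | succ k ih =>
      obtain ⟨B', hB', hB'i, h⟩ := ih
      obtain ⟨B'', hB'', hB''i, h'⟩ := hX k r B' hB'i
      refine ⟨B'', hB''.trans hB', hB''i, fun m hm => ?_⟩
      rcases Nat.lt_succ_iff_lt_or_eq.1 hm with hm | rfl
      exacts [(h m hm).mono_left (cube_mono_of_subset hB''), h']
  obtain ⟨B, hBA, hB, hd⟩ := exists_fusion
    (D := fun B r => ∀ m < r.card + 1, Disjoint (cube r B) (X m))
    (fun _ _ _ h _ hsub m hm => (h m hm).mono_left (cube_mono hsub))
    (fun B r hB => hfin _ B r hB) hA s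
  refine ⟨B, hBA.trans (above_subset _ _), hB, Set.disjoint_left.2 fun C hC hCX => ?_⟩
  obtain ⟨m, hm⟩ := mem_iUnion.1 hCX
  obtain ⟨T, hT, hTc⟩ := C.infinite.exists_subset_card_eq m
  let n := max (T.sup id + 1) (s.sup id + 1)
  have hsn : ∀ x ∈ s, x < n := fun x hx =>
    lt_of_le_of_lt (Finset.le_sup (f := id) hx) (le_max_right (T.sup id + 1) _)
  obtain ⟨t, ht, heq⟩ := exists_initSeg_eq hC hsn
  have hcard : m < (s ∪ t).card + 1 := by
    rw [← heq, ← hTc]
    exact Nat.lt_succ_of_le (Finset.card_le_card fun x hx => mem_initSeg.2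
      ⟨lt_of_le_of_lt (Finset.le_sup (f := id) hx) (le_max_left _ (s.sup id + 1)), hT hx⟩)
  have hsub : above (s ∪ t) C.carrier ⊆ B := fun x hx => by
    rcases hC.2 hx.1 with h | h
    exacts [absurd (hx.2 x (Finset.mem_union_left _ h)) (lt_irrefl x), h.1]
  exact Set.disjoint_left.1 (hd t (ht.trans (above_subset _ _)) m hcard)
    (cube_mono hsub (heq ▸ mem_cube_initSeg C n)) hm

theorem isRamseyNull_of_isMeagre {X : Set Pts} (hX : IsMeagre X) : IsRamseyNull X := by
  obtain ⟨S, hS, hSc, hsub⟩ := isMeagre_iff_countable_union_isNowhereDense.1 hX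
  obtain ⟨f, hf⟩ := (hSc.insert ∅).exists_eq_range (insert_nonempty _ _)
  refine (isRamseyNull_iUnion (X := f) fun m => isRamseyNull_of_isNowhereDense ?_).mono
    (hsub.trans (sUnion_subset fun t ht => ?_))
  · have : f m ∈ insert ∅ S := hf ▸ mem_range_self m
    rcases this with h | h
    exacts [h ▸ isNowhereDense_empty, hS _ h]
  · obtain ⟨k, rfl⟩ : t ∈ range f := hf ▸ mem_insert_of_mem _ ht
    exact subset_iUnion f k

theorem isMeagre_of_isRamseyNull {X : Set Pts} (hX : IsRamseyNull X) : IsMeagre X :=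
  (isNowhereDense_of_isRamseyNull hX).isMeagre

/-- A set with the property of Baire is completely Ramsey. -/
theorem isCR_of_baireMeasurableSet {X : Set Pts} (hX : BaireMeasurableSet X) : IsCR X := by
  obtain ⟨O, hO, hXO⟩ := hX.residualEq_isOpen
  have hnull := isRamseyNull_of_isMeagre (isMeagre_union_pair (isMeagre_diff_of_residualEq hXO)
    (isMeagre_diff_of_residualEq hXO.symm))
  intro s A hA
  obtain ⟨B, hBA, hB, hd⟩ := hnull s A hA
  obtain ⟨B', hB'B, hB', h | h⟩ := isCR_of_isOpen hO s B hB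
  · exact ⟨B', hB'B.trans hBA, hB', .inl fun C hC => by_contra fun hCX =>
      Set.disjoint_left.1 hd (cube_mono_of_subset hB'B hC) (.inr ⟨h hC, hCX⟩)⟩
  · exact ⟨B', hB'B.trans hBA, hB', .inr (Set.disjoint_left.2 fun C hC hCX =>
      Set.disjoint_left.1 hd (cube_mono_of_subset hB'B hC)
        (.inl ⟨hCX, Set.disjoint_left.1 h hC⟩))⟩

/-- A completely Ramsey set has the property of Baire. -/
theorem baireMeasurableSet_of_isCR {X : Set Pts} (hX : IsCR X) : BaireMeasurableSet X := by
  have hnull : IsRamseyNull (X \ interior X) := fun s A hA => by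
    obtain ⟨B, hBA, hB, h | h⟩ := hX s A hA
    · exact ⟨B, hBA, hB, Set.disjoint_left.2 fun C hC hCX =>
        hCX.2 (interior_maximal h (isOpen_cube s B) hC)⟩
    · exact ⟨B, hBA, hB, h.mono_right sdiff_subset⟩
  rw [← union_sdiff_cancel (interior_subset (s := X))]
  exact isOpen_interior.baireMeasurableSet.union
    (isMeagre_of_isRamseyNull hnull).baireMeasurableSet

/-- A measurable envelope in the Ellentuck topology. -/
theorem exists_envelope_cube (A : Set Pts) :
    ∃ M : Set Pts, A ⊆ M ∧ BaireMeasurableSet M ∧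
      ∀ B, BaireMeasurableSet B → B ⊆ M \ A → IsMeagre B := by
  let Big : Set Pts := ⋃₀ {O | IsOpen O ∧ IsMeagre (A ∩ O)}
  have hopen : IsOpen Big := isOpen_sUnion fun O hO => hO.1
  have hBig : IsMeagre (A ∩ Big) := by
    refine IsNowhereDense.isMeagre ?_
    rw [IsNowhereDense, eq_empty_iff_forall_notMem]
    intro C hC
    obtain ⟨D, hD, -, hDB⟩ :=
      mem_closure_iff.1 (interior_subset hC) _ isOpen_interior hC
    obtain ⟨O, ⟨hO, hm⟩, hDO⟩ := hDB
    have hnd : IsNowhereDense (A ∩ O) :=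
      isNowhereDense_of_isRamseyNull (isRamseyNull_of_isMeagre hm)
    have hsub : interior (closure (A ∩ Big)) ∩ O ⊆ closure (A ∩ O) := fun E hE => by
      have := hO.inter_closure ⟨hE.2, interior_subset hE.1⟩
      have hss : O ∩ (A ∩ Big) ⊆ A ∩ O := fun F hF => ⟨hF.2.1, hF.1⟩
      exact closure_mono hss this
    have hmem := interior_maximal hsub (isOpen_interior.inter hO) ⟨hD, hDO⟩
    rw [IsNowhereDense] at hnd
    rw [hnd] at hmem
    exact hmem
  refine ⟨Bigᶜ ∪ A ∩ Big, fun x hx => ?_,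
    hopen.baireMeasurableSet.compl.union hBig.baireMeasurableSet, fun B hB hsub => ?_⟩
  · by_cases h : x ∈ Big
    exacts [.inr ⟨hx, h⟩, .inl h]
  obtain ⟨O, hO, hBO⟩ := hB.residualEq_isOpen
  have hOB : O ⊆ Big := subset_sUnion_of_mem ⟨hO,
    isMeagre_mono (isMeagre_diff_of_residualEq hBO.symm)
      fun x hx => ⟨hx.2, fun hxB => (hsub hxB).2 hx.1⟩⟩
  refine isMeagre_mono (isMeagre_diff_of_residualEq hBO) fun x hx => ⟨hx, fun hxO => ?_⟩
  rcases (hsub hx).1 with h | h
  exacts [h (hOB hxO), (hsub hx).2 h.1]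

/-- The point of Cantor space of an infinite set. -/
noncomputable def toCantor (C : Pts) : ℕ → Bool :=
  C.carrier.boolIndicator

theorem continuous_toCantor : Continuous toCantor :=
  continuous_pi fun k => continuous_discrete_rng.2 fun b => fun C hC => ⟨k + 1, fun D hD => by
    have h := mem_iff_of_mem_cube_initSeg hD (Nat.lt_succ_self k)
    simp only [mem_preimage, mem_singleton_iff] at hC ⊢
    rw [← hC]
    simp only [toCantor, Set.boolIndicator]
    split_ifs <;> simp_all⟩

/-- **Analytic sets have the property of Baire in the Ellentuck topology.** -/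
theorem baireMeasurable_analytic_toCantor {A : Set (ℕ → Bool)} (hA : AnalyticSet A) :
    BaireMeasurableSet (toCantor ⁻¹' A) := by
  rw [AnalyticSet] at hA
  rcases hA with rfl | ⟨f, hf, rfl⟩
  · exact IsMeagre.empty.baireMeasurableSet
  let cyl : List ℕ → Set (ℕ → ℕ) := fun s => {z | res z s.length = s}
  have hex : ∀ s : List ℕ, ∃ M : Set Pts, toCantor ⁻¹' (f '' cyl s) ⊆ M ∧
      M ⊆ toCantor ⁻¹' closure (f '' cyl s) ∧ BaireMeasurableSet M ∧
      ∀ B, BaireMeasurableSet B → B ⊆ M \ toCantor ⁻¹' (f '' cyl s) → IsMeagre B := by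
    intro s
    obtain ⟨M, h1, h2, h3⟩ := exists_envelope_cube (toCantor ⁻¹' (f '' cyl s))
    exact ⟨M ∩ toCantor ⁻¹' closure (f '' cyl s),
      subset_inter h1 (preimage_mono subset_closure), inter_subset_right,
      h2.inter ((isClosed_closure.preimage continuous_toCantor).isOpen_compl.baireMeasurableSet
        ).of_compl, fun B hB hsub => h3 B hB fun x hx => ⟨(hsub hx).1.1, (hsub hx).2⟩⟩
  choose M hAM hMc hM hmax using hex
  have hpiece : ∀ s, IsMeagre (M s \ ⋃ n, M (n :: s)) := fun s => by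
    refine hmax s _ ((hM s).diff (BaireMeasurableSet.iUnion fun n => hM _))
      fun x hx => ⟨hx.1, ?_⟩
    rintro ⟨z, hz, hzx⟩
    exact hx.2 (mem_iUnion.2 ⟨z s.length, hAM _ ⟨z, by
      change res z (s.length + 1) = z s.length :: s
      rw [res_succ, show res z s.length = s from hz], hzx⟩⟩)
  have hsub : M [] \ toCantor ⁻¹' range f ⊆ ⋃ s, (M s \ ⋃ n, M (n :: s)) := by
    rintro x ⟨hx, hxf⟩
    by_contra hno
    simp only [mem_iUnion, Set.mem_sdiff, not_exists, not_and, not_forall, not_not] at hno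
    choose next hnext using hno
    let br : ℕ → {s : List ℕ // x ∈ M s} := fun n =>
      Nat.rec ⟨[], hx⟩ (fun _ s => ⟨next s.1 s.2 :: s.1, hnext s.1 s.2⟩) n
    let z : ℕ → ℕ := fun n => next (br n).1 (br n).2
    have hres : ∀ n, res z n = (br n).1 := fun n => by
      induction n with
      | zero => rfl
      | succ n ih => rw [res_succ, ih]
    obtain ⟨U, V, hU, hV, hxU, hzV, hUV⟩ :=
      t2_separation fun h : toCantor x = f z => hxf ⟨z, h.symm⟩
    obtain ⟨_, ⟨w, n, rfl⟩, hzn, hnV⟩ := (isTopologicalBasis_cylinders fun _ : ℕ => ℕ)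
      |>.exists_subset_of_mem_open (a := z) hzV (hV.preimage hf)
    have hcl : toCantor x ∈ closure (f '' cyl (br n).1) := hMc _ (br n).2
    obtain ⟨_, hyU, y, hy, rfl⟩ := mem_closure_iff.1 hcl U hU hxU
    refine hUV.le_bot ⟨hyU, hnV ?_⟩
    rw [← mem_cylinder_iff_eq.1 hzn, cylinder_eq_res, mem_ofPred_eq, hres]
    have hlen : (br n).1.length = n := by rw [← hres, res_length]
    simpa only [cyl, mem_ofPred_eq, hlen] using hy
  have hrange : toCantor ⁻¹' range f ⊆ M [] := fun x ⟨z, hz⟩ => hAM _ ⟨z, rfl, hz⟩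
  rw [← sdiff_sdiff_cancel_left hrange]
  exact (hM []).diff
    (isMeagre_mono (isMeagre_iUnion_countable hpiece) hsub).baireMeasurableSet

end FA.Ellentuck
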