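import Fermat.Agent.Ellentuck.Category

/-!
# Partition theorems

The lemma of Galvin, the theorem of Nash-Williams for thin families, and a set without the
Ramsey property.
-/

set_option autoImplicit false

namespace FA.Ellentuck

open Set

/-- `t` is an initial segment of `S`. -/
def IsInitSeg (t : Finset ℕ) (S : Set ℕ) : Prop :=
  ↑t ⊆ S ∧ ∀ x ∈ S, x ∉ t → ∀ y ∈ t, y < x

/-- No member is a proper initial segment of another. -/
def IsThin (F : Set (Finset ℕ)) : Prop :=
  ∀ t ∈ F, ∀ t' ∈ F, IsInitSeg t ↑t' → t = t'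

/-- **Galvin's lemma.** -/
theorem galvin_lemma (F : Set (Finset ℕ)) {A : Set ℕ} (hA : A.Infinite) :
    ∃ H ⊆ A, H.Infinite ∧ ((∀ t : Finset ℕ, ↑t ⊆ H → t ∉ F) ∨
      ∀ C ⊆ H, C.Infinite → ∃ t ∈ F, IsInitSeg t C) := by
  have hopen : IsOpen (⋃ t ∈ F, cube t univ) :=
    isOpen_biUnion fun t _ => isOpen_cube t univ
  obtain ⟨H, hHA, hH, h | h⟩ := isCR_of_isOpen hopen ∅ A hA
  · refine ⟨H, hHA, hH, .inr fun C hC hCi => ?_⟩
    obtain ⟨t, ht, hCt⟩ :=
      mem_iUnion₂.1 (h (a := ⟨C, hCi⟩) ⟨by simp, by simpa [above_empty] using hC⟩)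
    exact ⟨t, ht, hCt.1, fun x hx hxt y hy => ((hCt.2 hx).resolve_left hxt).2 y hy⟩
  · refine ⟨H, hHA, hH, .inl fun t ht htF => ?_⟩
    obtain ⟨C, hC⟩ := cube_nonempty t hH
    refine Set.disjoint_left.1 h ⟨by simp, fun x hx => .inr ?_⟩
      (mem_iUnion₂.2 ⟨t, htF, cube_mono_of_subset (subset_univ H) hC⟩)
    rw [above_empty]
    rcases hC.2 hx with hx | hx
    exacts [ht hx, hx.1]

/-- Initial segments of one set are comparable. -/
theorem IsInitSeg.comparable {t t' : Finset ℕ} {S : Set ℕ} (ht : IsInitSeg t S)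
    (ht' : IsInitSeg t' S) : IsInitSeg t ↑t' ∨ IsInitSeg t' ↑t := by
  by_cases h : t ⊆ t'
  · exact .inl ⟨by simpa using h, fun x hx hxt => ht.2 x (ht'.1 hx) hxt⟩
  obtain ⟨x, hx, hxt'⟩ := Finset.not_subset.1 h
  refine .inr ⟨fun y hy => ?_, fun y hy hyt => ht'.2 y (ht.1 hy) hyt⟩
  by_contra hyt
  exact lt_asymm (ht'.2 x (ht.1 hx) hxt' y hy) (ht.2 y (ht'.1 hy) hyt x hx)

/-- **Nash-Williams.** For a finite colouring of a thin family some infinite set has all of its
members of the family in one colour. -/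
theorem exists_monochromatic_thin {ι : Type*} [Finite ι] [Nonempty ι] {F : Set (Finset ℕ)}
    (hF : IsThin F) (c : Finset ℕ → ι) {A : Set ℕ} (hA : A.Infinite) :
    ∃ H ⊆ A, H.Infinite ∧ ∃ i, ∀ t ∈ F, ↑t ⊆ H → c t = i := by
  classical
  have : Fintype ι := Fintype.ofFinite ι
  have hall : ∀ L : Finset ι, ∃ H ⊆ A, H.Infinite ∧ ∀ i ∈ L,
      (∀ t ∈ F, ↑t ⊆ H → c t ≠ i) ∨ ∀ t ∈ F, ↑t ⊆ H → c t = i := by
    intro L
    induction L using Finset.induction_on with
    | empty => exact ⟨A, subset_rfl, hA, fun i hi => absurd hi (Finset.notMem_empty i)⟩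
    | insert i L _ ih =>
      obtain ⟨H, hHA, hH, hL⟩ := ih
      obtain ⟨H', hH'H, hH', h⟩ := galvin_lemma {t | t ∈ F ∧ c t = i} hH
      refine ⟨H', hH'H.trans hHA, hH', fun j hj => ?_⟩
      rcases Finset.mem_insert.1 hj with rfl | hj
      · rcases h with h | h
        · exact .inl fun t ht htH hti => h t htH ⟨ht, hti⟩
        refine .inr fun t ht htH => ?_
        obtain ⟨C, hC⟩ := cube_nonempty t hH'
        have hCH : C.carrier ⊆ H' := fun x hx => (hC.2 hx).elim (fun h => htH h) fun h => h.1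
        obtain ⟨t', ⟨ht', hct'⟩, hseg⟩ := h C.carrier hCH C.infinite
        have htseg : IsInitSeg t C.carrier :=
          ⟨hC.1, fun x hx hxt y hy => ((hC.2 hx).resolve_left hxt).2 y hy⟩
        rcases htseg.comparable hseg with h' | h'
        exacts [hF t ht t' ht' h' ▸ hct', hF t' ht' t ht h' ▸ hct']
      · exact (hL j hj).imp (fun h t ht htH => h t ht (htH.trans hH'H))
          fun h t ht htH => h t ht (htH.trans hH'H)
  obtain ⟨H, hHA, hH, h⟩ := hall Finset.univ
  refine ⟨H, hHA, hH, ?_⟩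
  by_cases hsome : ∃ i, ∀ t ∈ F, ↑t ⊆ H → c t = i
  · exact hsome
  refine ⟨Classical.arbitrary ι, fun t ht htH => absurd rfl
    (((h (c t) (Finset.mem_univ _)).resolve_right fun h => hsome ⟨_, h⟩) t ht htH)⟩

/-- Finite difference. -/
def finiteDiff : Setoid (Set ℕ) where
  r S T := (symmDiff S T).Finite
  iseqv :=
    { refl := fun S => by simp
      symm := fun h => by rwa [symmDiff_comm]
      trans := fun h h' => (h.union h').subset (symmDiff_triangle _ _ _) }

/-- **A set without the Ramsey property.** -/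
theorem exists_not_ramsey : ∃ X : Set (Set ℕ), ∀ H : Set ℕ, H.Infinite →
    (∃ C ⊆ H, C.Infinite ∧ C ∈ X) ∧ ∃ C ⊆ H, C.Infinite ∧ C ∉ X := by
  classical
  let rep : Set ℕ → Set ℕ := fun S => (Quotient.mk finiteDiff S).out
  refine ⟨{S | Even (symmDiff S (rep S)).ncard}, fun H hH => ?_⟩
  obtain ⟨a, ha⟩ := hH.nonempty
  have hH' : (H \ {a}).Infinite := hH.sdiff (finite_singleton a)
  have hrel : (symmDiff H (H \ {a})).Finite := (finite_singleton a).subset fun x hx => by
    rcases hx with ⟨h1, h2⟩ | ⟨h1, h2⟩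
    exacts [by_contra fun h => h2 ⟨h1, h⟩, absurd h1.1 h2]
  have hrep : rep (H \ {a}) = rep H :=
    congrArg Quotient.out (Quotient.sound (s := finiteDiff) hrel).symm
  have hfin : (symmDiff H (rep H)).Finite :=
    finiteDiff.iseqv.symm (Quotient.exact (Quotient.out_eq (Quotient.mk finiteDiff H)))
  have hparity : Even (symmDiff (H \ {a}) (rep H)).ncard ↔ ¬Even (symmDiff H (rep H)).ncard := by
    by_cases har : a ∈ rep H
    · have e : symmDiff (H \ {a}) (rep H) = insert a (symmDiff H (rep H)) := by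
        ext x
        by_cases hx : x = a
        · subst hx
          simp [mem_symmDiff, har]
        · simp [mem_symmDiff, hx]
      rw [e, ncard_insert_of_notMem (by simp [mem_symmDiff, ha, har]) hfin, Nat.even_add_one]
    · have e : symmDiff H (rep H) = insert a (symmDiff (H \ {a}) (rep H)) := by
        ext x
        by_cases hx : x = a
        · subst hx
          simp [mem_symmDiff, ha, har]
        · simp [mem_symmDiff, hx]
      have hfin' : (symmDiff (H \ {a}) (rep H)).Finite :=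
        hfin.subset (e ▸ subset_insert _ _)
      rw [e, ncard_insert_of_notMem (by simp [mem_symmDiff, har]) hfin', Nat.even_add_one, not_not]
  simp only [mem_ofPred_eq]
  by_cases h : Even (symmDiff H (rep H)).ncard
  · exact ⟨⟨H, subset_rfl, hH, h⟩, ⟨H \ {a}, sdiff_subset, hH', by
      rw [hrep, hparity]; exact not_not_intro h⟩⟩
  · exact ⟨⟨H \ {a}, sdiff_subset, hH', by rw [hrep]; exact hparity.2 h⟩,
      ⟨H, subset_rfl, hH, h⟩⟩

end FA.Ellentuck
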